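import Fermat.Agent.DSRep.Abs
import Fermat.Agent.LG.AsmB
import Fermat.Agent.Cheb.Exist
import Fermat.Agent.WOne.P7Level

/-!
# Mod `ℓ` representations attached to eigenclasses
-/

set_option autoImplicit false
set_option linter.unusedSectionVars false

noncomputable section

namespace Fermat.Agent.DSRep

open NumberField Matrix Fermat.Agent.DefRing

section psi

variable {N : ℕ} [NeZero N] {K : Type} [Field K] [NumberField K] {e : ℕ → 𝓞 K} {ι : K →+* ℂ}
  {ε : DirichletCharacter ℂ N} (he : ∀ s : ℕ, s.Prime → ¬ s ∣ N → ι (e s : K) = ε (s : ZMod N))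

include he in
/-- the values of `ε` in a quotient of the ring of integers -/
theorem exists_psi {k : Type} [CommRing k] (φ : 𝓞 K →+* k) : ∃ ψ : (ZMod N)ˣ →* k,
    ∀ s : ℕ, s.Prime → ¬ s ∣ N → ∀ x : (ZMod N)ˣ, (x : ZMod N) = s → ψ x = φ (e s) := by
  have hinj : Function.Injective fun y : 𝓞 K => ι (y : K) := fun x y hxy =>
    RingOfIntegers.coe_injective (ι.injective hxy)
  have hs : ∀ x : (ZMod N)ˣ, ∃ s : ℕ, s.Prime ∧ ¬ s ∣ N ∧ (s : ZMod N) = x := by
    intro x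
    obtain ⟨s, hs, hp, hx⟩ := Nat.forall_exists_prime_gt_and_eq_mod x.isUnit N
    exact ⟨s, hp, fun h => absurd (Nat.le_of_dvd (NeZero.pos N) h) (by omega), hx⟩
  choose s hsp hsN hsx using hs
  have key : ∀ x : (ZMod N)ˣ, ι (e (s x) : K) = ε (x : ZMod N) := fun x => by
    rw [he _ (hsp x) (hsN x), hsx]
  refine ⟨⟨⟨fun x => φ (e (s x)), ?_⟩, fun x y => ?_⟩, fun l hl hlN x hx => ?_⟩
  · have h1 : e (s 1) = 1 := hinj (by
      show ι (e (s 1) : K) = ι (algebraMap (𝓞 K) K (1 : 𝓞 K))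
      rw [key, Units.val_one, map_one, map_one, map_one])
    show φ (e (s 1)) = 1
    rw [h1, map_one]
  · have h1 : e (s (x * y)) = e (s x) * e (s y) := hinj (by
      show ι (e (s (x * y)) : K) = ι (algebraMap (𝓞 K) K (e (s x) * e (s y)))
      rw [map_mul (algebraMap (𝓞 K) K), map_mul ι]
      exact (key (x * y)).trans (by rw [Units.val_mul, map_mul, ← key, ← key]))
    show φ (e (s (x * y))) = φ (e (s x)) * φ (e (s y))
    rw [h1, map_mul]
  · have h1 : e (s x) = e l := hinj (by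
      show ι (e (s x) : K) = ι (e l : K)
      rw [key, he l hl hlN, hx])
    show φ (e (s x)) = φ (e l)
    rw [h1]

end psi

section main

variable {N : ℕ} [NeZero N] {K : Type} [Field K] [NumberField K] (a e : ℕ → 𝓞 K) (ι : K →+* ℂ)
  (ε : DirichletCharacter ℂ N) (he : ∀ s : ℕ, s.Prime → ¬ s ∣ N → ι (e s : K) = ε (s : ZMod N))
  {ℓ : ℕ} [hℓ : Fact ℓ.Prime] (hℓ2 : ℓ ≠ 2) (φ : 𝓞 K →+* ZMod ℓ)
  {F : Type} [Field F] [Algebra (ZMod ℓ) F] (V : Type) [AddCommGroup V] [Module F V]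
  [FiniteDimensional F V] [Nontrivial V] (ρ : GQ →* Module.End F V)
  (hlev : GaloisFactorsThroughFiniteLevel ρ)
  (hunr : ∀ s : ℕ, s.Prime → ¬ s ∣ N → s ≠ ℓ → ∀ A : ValuationSubring (AlgebraicClosure ℚ),
    A.LiesOverPrime s → ∀ σ ∈ A.inertiaSubgroupIn ℚ, ρ σ = 1)
  (hrel : ∀ s : ℕ, s.Prime → ¬ s ∣ N → s ≠ ℓ → ∀ A : ValuationSubring (AlgebraicClosure ℚ),
    A.LiesOverPrime s → ∀ Φ : GQ, A.IsFrobeniusAt Φ s →
      ρ Φ * ρ Φ - algebraMap (ZMod ℓ) F (φ (a s)) • ρ Φ +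
        algebraMap (ZMod ℓ) F (φ (e s)) • (1 : Module.End F V) = 0)

include he hℓ2 hlev hunr hrel in
/-- **The mod `ℓ` representation.** -/
theorem modRep_of_rel : Nonempty (WOne.ModRep N a e ℓ φ) := by
  classical
  obtain ⟨ψ, hψ⟩ := exists_psi he φ
  obtain ⟨L, hL, hLρ⟩ := hlev
  obtain ⟨ζ, hζ⟩ := HasEnoughRootsOfUnity.exists_primitiveRoot (AlgebraicClosure ℚ) N
  -- the level
  let Lζ : IntermediateField ℚ (AlgebraicClosure ℚ) := IntermediateField.adjoin ℚ {ζ}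
  have hLζ : FiniteDimensional ℚ Lζ := IntermediateField.adjoin.finiteDimensional
    (Algebra.IsIntegral.isIntegral ζ)
  let E : IntermediateField ℚ (AlgebraicClosure ℚ) := L ⊔ Lζ
  have hE : FiniteDimensional ℚ E := IntermediateField.finiteDimensional_sup L Lζ
  have hLE : L ≤ E := le_sup_left
  have hζE : ζ ∈ E := (le_sup_right : Lζ ≤ E) (IntermediateField.mem_adjoin_simple_self ℚ ζ)
  let εG : GQ →* F := ((algebraMap (ZMod ℓ) F : ZMod ℓ →+* F) : ZMod ℓ →* F).comp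
    (ψ.comp (LG.cyc N))
  have hεG : ∀ (s : ℕ), s.Prime → ¬ s ∣ N → ∀ A : ValuationSubring (AlgebraicClosure ℚ),
      A.LiesOverPrime s → ∀ Φ : GQ, A.IsFrobeniusAt Φ s →
        εG Φ = algebraMap (ZMod ℓ) F (φ (e s)) := by
    intro s hs hsN A hA Φ hΦ
    show algebraMap (ZMod ℓ) F (ψ (LG.cyc N Φ)) = _
    rw [hψ s hs hsN _ (LG.cyc_frob hs
      ((Nat.Prime.coprime_iff_not_dvd hs).mpr hsN).symm hA hΦ)]
  have hinv : ∀ σ : GQ, ρ σ * ρ σ⁻¹ = 1 := fun σ => by rw [← map_mul, mul_inv_cancel, map_one]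
  -- the relation for all elements
  have hall : ∀ σ : GQ, ∃ t : F, ρ σ + εG σ • ρ σ⁻¹ = t • (1 : Module.End F V) := by
    intro σ
    obtain ⟨s, hs, hsS, -, A, hA, Φ, hΦ, hΦσ⟩ :=
      Cheb.exists_frobenius_eq E hE σ (insert ℓ N.divisors)
    rw [Finset.mem_insert, Nat.mem_divisors] at hsS
    push Not at hsS
    have hsN : ¬ s ∣ N := fun h => NeZero.ne N (hsS.2 h)
    have h1 : ρ Φ = ρ σ := by
      have h2 : ρ (σ⁻¹ * Φ) = 1 := hLρ _ fun x hx => by
        rw [AlgEquiv.mul_apply, hΦσ x (hLE hx)]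
        exact σ.symm_apply_apply x
      calc ρ Φ = ρ σ * ρ (σ⁻¹ * Φ) := by rw [← map_mul, mul_inv_cancel_left]
        _ = ρ σ := by rw [h2, mul_one]
    have h2 : εG σ = algebraMap (ZMod ℓ) F (φ (e s)) := by
      rw [← hεG s hs hsN A hA Φ hΦ]
      show algebraMap (ZMod ℓ) F (ψ (LG.cyc N σ)) = algebraMap (ZMod ℓ) F (ψ (LG.cyc N Φ))
      rw [LG.cyc_congr hζ (hΦσ ζ hζE)]
    have h3 := hrel s hs hsN hsS.1 A hA Φ hΦ
    rw [h1, ← h2] at h3
    refine ⟨algebraMap (ZMod ℓ) F (φ (a s)), ?_⟩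
    have h4 := congrArg (fun f : Module.End F V => f * ρ σ⁻¹) h3
    simp only [add_mul, sub_mul, zero_mul, smul_mul_assoc, one_mul, mul_assoc, hinv, mul_one] at h4
    rw [← sub_eq_zero, ← h4]
    abel
  choose t ht using hall
  -- base change
  let k := AlgebraicClosure F
  let Vk := TensorProduct F k V
  let ρk : GQ →* Module.End k Vk :=
    { toFun := fun σ => (ρ σ).baseChange k
      map_one' := by rw [map_one]; exact LinearMap.baseChange_id
      map_mul' := fun σ τ => by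
        rw [map_mul]
        exact LinearMap.baseChange_comp _ _ }
  have hρk : ∀ σ, ρk σ = (ρ σ).baseChange k := fun σ => rfl
  let εk : GQ →* k := ((algebraMap F k : F →+* k) : F →* k).comp εG
  have hεk : ∀ σ, εk σ = algebraMap F k (εG σ) := fun σ => rfl
  have h2 : (2 : k) ≠ 0 := by
    have h3 : (2 : ZMod ℓ) ≠ 0 := by
      have h4 : ((2 : ℕ) : ZMod ℓ) ≠ 0 := by
        rw [Ne, ZMod.natCast_eq_zero_iff]
        intro h
        exact hℓ2 ((Nat.prime_dvd_prime_iff_eq hℓ.out Nat.prime_two).mp h)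
      exact_mod_cast h4
    intro h
    apply h3
    apply (algebraMap (ZMod ℓ) F).injective
    apply (algebraMap F k).injective
    rw [map_ofNat, map_ofNat, map_zero, map_zero]
    exact h
  have hk : ∀ σ, ρk σ + εk σ • ρk σ⁻¹ = algebraMap F k (t σ) • (1 : Module.End k Vk) := by
    intro σ
    have h3 := congrArg (fun f : Module.End F V => f.baseChange k) (ht σ)
    simp only [LinearMap.baseChange_add, LinearMap.baseChange_smul] at h3
    rw [hρk, hρk, hεk, algebraMap_smul, algebraMap_smul, h3]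
    congr 1
    exact LinearMap.baseChange_id
  have hnt : Nontrivial Vk := by
    have : Module.FaithfullyFlat F k := inferInstance
    infer_instance
  obtain ⟨r, hr, hr1, hss⟩ := exists_ss h2 ρk (fun σ => algebraMap F k (t σ)) εk hk
  have hr1' : ∀ σ, ρ σ = 1 → LG.cyc N σ = 1 → r σ = 1 := by
    intro σ h3 h4
    refine hr1 σ ?_ ?_
    · rw [hρk, h3]; exact LinearMap.baseChange_id
    · rw [hεk]
      show algebraMap F k (algebraMap (ZMod ℓ) F (ψ (LG.cyc N σ))) = 1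
      rw [h4, map_one, map_one, map_one]
  let _ : Algebra (ZMod ℓ) k := ((algebraMap F k).comp (algebraMap (ZMod ℓ) F)).toAlgebra
  refine ⟨{ k := k, ρ := r, level := ⟨E, hE, fun σ hσ => ?_⟩, ss := hss, inertia := ?_, frob := ?_ }⟩
  · refine hr1' σ (hLρ σ fun x hx => hσ x (hLE hx)) ?_
    rw [← map_one (LG.cyc N)]
    exact LG.cyc_congr hζ (hσ ζ hζE)
  · intro s hs hsN hsℓ A hA σ hσ
    exact hr1' σ (hunr s hs hsN hsℓ A hA σ hσ)
      (LG.cyc_inertia hs ((Nat.Prime.coprime_iff_not_dvd hs).mpr hsN).symm hA hσ)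
  · intro s hs hsN hsℓ A hA Φ hΦ
    have h3 := hrel s hs hsN hsℓ A hA Φ hΦ
    have h4 := hεG s hs hsN A hA Φ hΦ
    have h5 : t Φ = algebraMap (ZMod ℓ) F (φ (a s)) := by
      have h6 := congrArg (fun f : Module.End F V => f * ρ Φ) (ht Φ)
      have h7 : ρ Φ⁻¹ * ρ Φ = 1 := by rw [← map_mul, inv_mul_cancel, map_one]
      simp only [add_mul, smul_mul_assoc, one_mul, h7] at h6
      rw [h4] at h6
      have h8 : (t Φ - algebraMap (ZMod ℓ) F (φ (a s))) • ρ Φ = 0 := by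
        rw [sub_smul, ← h6, ← h3]
        abel
      rcases smul_eq_zero.mp h8 with h9 | h9
      · exact sub_eq_zero.mp h9
      · exfalso
        have h10 := hinv Φ
        rw [h9, zero_mul] at h10
        exact zero_ne_one h10
    refine ⟨?_, ?_⟩
    · rw [(hr Φ).1, h5]
      rfl
    · rw [(hr Φ).2, hεk, h4]
      rfl

end main

end Fermat.Agent.DSRep
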