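import Fermat.Agent.QuadRep.Alg
import Fermat.Agent.QuadRep.RankTwo

/-!
# Semisimple two dimensional representations from quadratic relations
-/

set_option autoImplicit false

noncomputable section

namespace Fermat.Agent.DSRep

open Matrix

variable {G : Type*} [Group G] {k : Type*} [Field k]

/-- `ρ` is semisimple: every stable line has a stable complement. -/
def SS (r : G →* GL (Fin 2) k) : Prop :=
  ∀ v : Fin 2 → k, v ≠ 0 → (∀ σ, ∃ c : k, (r σ).1 *ᵥ v = c • v) →
    ∃ w : Fin 2 → k, (∀ c : k, w ≠ c • v) ∧ ∀ σ, ∃ c : k, (r σ).1 *ᵥ w = c • w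

/-- the diagonal representation -/
def diagG (c d : G →* kˣ) : G →* GL (Fin 2) k where
  toFun g := ⟨diagonal ![(c g : k), (d g : k)], diagonal ![((c g)⁻¹ : kˣ), ((d g)⁻¹ : kˣ)], by
    rw [diagonal_mul_diagonal, ← diagonal_one]
    congr 1
    funext i
    fin_cases i <;> simp, by
    rw [diagonal_mul_diagonal, ← diagonal_one]
    congr 1
    funext i
    fin_cases i <;> simp⟩
  map_one' := by
    ext i j
    fin_cases i <;> fin_cases j <;> simp
  map_mul' g h := by
    ext i j
    fin_cases i <;> fin_cases j <;> simp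

theorem diagG_coe (c d : G →* kˣ) (g : G) :
    (diagG c d g).1 = diagonal ![(c g : k), (d g : k)] := rfl

theorem diagG_mulVec (c d : G →* kˣ) (g : G) (v : Fin 2 → k) :
    (diagG c d g).1 *ᵥ v = ![(c g : k) * v 0, (d g : k) * v 1] := by
  rw [diagG_coe]
  funext i
  rw [mulVec_diagonal]
  fin_cases i <;> simp

theorem ss_diagG (c d : G →* kˣ) : SS (diagG c d) := by
  intro v hv _
  by_cases h1 : v 1 = 0
  · refine ⟨![0, 1], fun a ha => ?_, fun σ => ⟨d σ, ?_⟩⟩
    · have := congrFun ha 1
      simp [h1] at this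
    · rw [diagG_mulVec]
      funext i
      fin_cases i <;> simp
  · refine ⟨![1, 0], fun a ha => ?_, fun σ => ⟨c σ, ?_⟩⟩
    · have h2 := congrFun ha 1
      have h3 := congrFun ha 0
      simp only [Matrix.cons_val_one, Matrix.cons_val_zero, Pi.smul_apply, smul_eq_mul] at h2 h3
      have h4 : a = 0 := by
        rcases mul_eq_zero.mp h2.symm with h | h
        · exact h
        · exact absurd h h1
      rw [h4, zero_mul] at h3
      exact one_ne_zero h3
    · rw [diagG_mulVec]
      funext i
      fin_cases i <;> simp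

variable {V : Type*} [AddCommGroup V] [Module k V]

/-- the character on a stable line -/
theorem exists_char (ρ : G →* Module.End k V) {v : V} (hv : v ≠ 0)
    (h : ∀ g, ∃ c : k, ρ g v = c • v) : ∃ c : G →* kˣ, ∀ g, ρ g v = (c g : k) • v := by
  choose c hc using h
  have h1 : c 1 = 1 := by
    have h2 := hc 1
    rw [map_one, Module.End.one_apply] at h2
    have h3 : (c 1 - 1) • v = 0 := by rw [sub_smul, ← h2, one_smul, sub_self]
    exact sub_eq_zero.mp ((smul_eq_zero.mp h3).resolve_right hv)
  have hm : ∀ g h, c (g * h) = c g * c h := by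
    intro g h
    have h2 := hc (g * h)
    rw [map_mul, Module.End.mul_apply, hc h, map_smul, hc g, smul_smul] at h2
    have h3 : (c (g * h) - c g * c h) • v = 0 := by
      rw [sub_smul, ← h2, mul_comm, sub_self]
    exact sub_eq_zero.mp ((smul_eq_zero.mp h3).resolve_right hv)
  let c' : G →* k := ⟨⟨c, h1⟩, hm⟩
  exact ⟨c'.toHomUnits, fun g => hc g⟩

variable [FiniteDimensional k V] [Nontrivial V] [IsAlgClosed k]

/-- **The semisimple representation.** -/
theorem exists_ss (h2 : (2 : k) ≠ 0) (ρ : G →* Module.End k V) (t : G → k) (ε : G →* k)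
    (h : ∀ g, ρ g + ε g • ρ g⁻¹ = t g • (1 : Module.End k V)) :
    ∃ r : G →* GL (Fin 2) k, (∀ g, (r g).1.trace = t g ∧ (r g).1.det = ε g) ∧
      (∀ g, ρ g = 1 → ε g = 1 → r g = 1) ∧ SS r := by
  classical
  by_cases hA : ∃ v : V, v ≠ 0 ∧ ∀ g, ∃ c : k, ρ g v = c • v
  · obtain ⟨v, hv, hv'⟩ := hA
    obtain ⟨c, hc⟩ := exists_char ρ hv hv'
    let ε' : G →* kˣ := ε.toHomUnits
    have hε' : ∀ g, (ε' g : k) = ε g := fun g => rfl
    have ht : ∀ g, (c g : k) + ε g * ((c g)⁻¹ : kˣ) = t g := by
      intro g
      have h3 := congrArg (fun f : Module.End k V => f v) (h g)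
      simp only [LinearMap.add_apply, LinearMap.smul_apply, Module.End.one_apply] at h3
      rw [hc, hc, smul_smul, ← add_smul, map_inv] at h3
      have h4 : ((c g : k) + ε g * ((c g)⁻¹ : kˣ) - t g) • v = 0 := by
        rw [sub_smul, h3, sub_self]
      exact sub_eq_zero.mp ((smul_eq_zero.mp h4).resolve_right hv)
    refine ⟨diagG c (ε' * c⁻¹), fun g => ⟨?_, ?_⟩, fun g hg hεg => ?_, ss_diagG _ _⟩
    · rw [diagG_coe, trace_diagonal, Fin.sum_univ_two, ← ht]
      simp [hε']
    · rw [diagG_coe, det_diagonal, Fin.prod_univ_two]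
      simp only [cons_val_zero, cons_val_one, MonoidHom.mul_apply, MonoidHom.inv_apply,
        Units.val_mul, hε']
      rw [mul_left_comm, Units.mul_inv, mul_one]
    · have h3 : c g = 1 := by
        have h4 := hc g
        rw [hg, Module.End.one_apply] at h4
        have h5 : ((c g : k) - 1) • v = 0 := by rw [sub_smul, one_smul, ← h4, sub_self]
        exact Units.ext (sub_eq_zero.mp ((smul_eq_zero.mp h5).resolve_right hv))
      have h4 : ε' g = 1 := Units.ext (by rw [hε', hεg]; rfl)
      apply Units.ext
      rw [diagG_coe, MonoidHom.mul_apply, MonoidHom.inv_apply, h3, h4]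
      ext i j
      fin_cases i <;> fin_cases j <;> simp
  · obtain ⟨W, hW, hd⟩ := QuadRep.exists_invariant h2 ρ t ε h
    -- the restriction
    let ρW : G →* Module.End k W :=
      { toFun := fun g => (ρ g).restrict (fun w hw => hW g w hw)
        map_one' := by ext w; simp [LinearMap.restrict_apply]
        map_mul' := fun g h => by ext w; simp [LinearMap.restrict_apply] }
    have hρW : ∀ g (w : W), (ρW g w : V) = ρ g w := fun g w => rfl
    have hnoline : ∀ w : W, w ≠ 0 → ¬ ∀ g, ∃ c : k, ρW g w = c • w := by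
      intro w hw hcon
      refine hA ⟨w, fun h0 => hw (Subtype.ext h0), fun g => ?_⟩
      obtain ⟨c, hc⟩ := hcon g
      exact ⟨c, congrArg Subtype.val hc⟩
    rcases hd with hd | ⟨hd, g₀, hg₀⟩
    · exfalso
      obtain ⟨w, hw, hw'⟩ := finrank_eq_one_iff'.mp hd
      exact hnoline w hw fun g => by
        obtain ⟨c, hc⟩ := hw' (ρW g w)
        exact ⟨c, hc.symm⟩
    · have hqW : ∀ g, ρW g + ε g • ρW g⁻¹ = t g • (1 : Module.End k W) := by
        intro g
        ext w
        have h3 := congrArg (fun f : Module.End k V => f w) (h g)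
        exact h3
      have hns : ∃ g, ∀ c : k, ρW g ≠ c • (1 : Module.End k W) := by
        refine ⟨g₀, fun c hc => ?_⟩
        obtain ⟨w, hw, hne⟩ := hg₀ c
        apply hne
        have h3 := congrArg (fun f : Module.End k W => ((f ⟨w, hw⟩ : W) : V)) hc
        exact h3
      have hchar := QuadRep.rankTwo_charpoly hd ρW t ε hqW hns
      let b : Module.Basis (Fin 2) k W := Module.finBasisOfFinrankEq k W hd
      let m : Module.End k W →* Matrix (Fin 2) (Fin 2) k :=
        { toFun := fun f => LinearMap.toMatrix b b f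
          map_one' := LinearMap.toMatrix_one b
          map_mul' := fun f g => LinearMap.toMatrix_mul b f g }
      let r : G →* GL (Fin 2) k := (m.comp ρW).toHomUnits
      have hr : ∀ g, (r g).1 = LinearMap.toMatrix b b (ρW g) := fun g => rfl
      have hcp : ∀ g, (r g).1.trace = t g ∧ (r g).1.det = ε g := by
        intro g
        have h3 := hchar g
        rw [← LinearMap.charpoly_toMatrix _ b, Matrix.charpoly_fin_two, ← hr] at h3
        have h4 := congrArg (fun P => Polynomial.coeff P 1) h3
        have h5 := congrArg (fun P => Polynomial.coeff P 0) h3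
        simp [Polynomial.coeff_X, Polynomial.coeff_C] at h4 h5
        exact ⟨h4, h5⟩
      refine ⟨r, hcp, fun g hg _ => ?_, fun v hv hcon => ?_⟩
      · apply Units.ext
        rw [hr]
        have h3 : ρW g = 1 := by
          ext w
          rw [hρW, hg]
          rfl
        rw [h3, LinearMap.toMatrix_one]
        rfl
      · exfalso
        let w : W := b.equivFun.symm v
        have hw : w ≠ 0 := fun h0 => hv (by
          have h3 := congrArg b.equivFun h0
          rwa [LinearEquiv.apply_symm_apply, map_zero] at h3)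
        refine hnoline w hw fun g => ?_
        obtain ⟨c, hc⟩ := hcon g
        refine ⟨c, b.equivFun.injective ?_⟩
        have h3 : b.equivFun (ρW g w) = (r g).1 *ᵥ (b.equivFun w) :=
          (LinearMap.toMatrix_mulVec_repr b b (ρW g) w).symm
        rw [h3, LinearEquiv.apply_symm_apply, hc, map_smul, LinearEquiv.apply_symm_apply]

end Fermat.Agent.DSRep
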